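import Fermat.Agent.S41.Ihara.Stab
import Fermat.Agent.GAL.HK.Parabolic

/-!
# S41 / Ihara (C) : the weak Ihara lemma  `T_ℓ² φ₁ = (ℓ+1)² φ₁`
-/

set_option autoImplicit false

open CongruenceSubgroup ModularCurve.Period Matrix.SpecialLinearGroup
open scoped MatrixGroups
open P2MW.S_ModularForm_heckeT_slash_eq_self_of_mem_Gamma0.ModularForm.HeckeSlashInvariance
open Fermat.Agent.GAL.HK

namespace Fermat.Agent.S41.Ihara

variable {A : Type*} [AddCommGroup A]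

/-- integral versions of the representatives of `T_ℓ`. -/
def intRep (l : ℕ) (u : OnePoint (ZMod l)) : Matrix (Fin 2) (Fin 2) ℤ :=
  u.elim !![(l : ℤ), 0; 0, 1] (fun j => !![1, (j.val : ℤ); 0, (l : ℤ)])

theorem heckeRep_val {l : ℕ} (hl : l ≠ 0) (u : OnePoint (ZMod l)) :
    ((heckeRep l u : GL (Fin 2) ℝ) : Matrix (Fin 2) (Fin 2) ℝ) =
      (intRep l u).map (Int.cast : ℤ → ℝ) := by
  induction u using OnePoint.rec with
  | infty =>
    rw [heckeRep_infty, ModularForm.val_heckeDiagMatrix hl]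
    ext i j
    fin_cases i <;> fin_cases j <;> simp [intRep]
  | coe j =>
    rw [heckeRep_coe, ModularForm.val_heckeMatrix hl]
    ext i j
    fin_cases i <;> fin_cases j <;> simp [intRep]

theorem gl_rel {G : GL (Fin 2) ℝ} {R : Matrix (Fin 2) (Fin 2) ℤ}
    (hG : (G : Matrix (Fin 2) (Fin 2) ℝ) = R.map (Int.cast : ℤ → ℝ)) {γ γ' : SL(2, ℤ)}
    (h : R * (γ : Matrix (Fin 2) (Fin 2) ℤ) = (γ' : Matrix (Fin 2) (Fin 2) ℤ) * R) :
    G * mapGL ℝ γ = mapGL ℝ γ' * G := by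
  apply Units.ext
  rw [Units.val_mul, Units.val_mul, hG]
  have h1 : ∀ g : SL(2, ℤ), ((mapGL ℝ g : GL (Fin 2) ℝ) : Matrix (Fin 2) (Fin 2) ℝ) =
      (g : Matrix (Fin 2) (Fin 2) ℤ).map (Int.cast : ℤ → ℝ) := by
    intro g
    ext i j
    simp
  rw [h1, h1]
  rw [← Matrix.map_mul_intCast, ← Matrix.map_mul_intCast, h]

theorem Stab.uniform {N l : ℕ} {φ : Additive (Gamma0 N) →+ A} {ι : Type*} [Fintype ι]
    (x : ι → Matrix (Fin 2) (Fin 2) ℤ) (h : ∀ i, Stab l φ (x i)) (n : ℕ) :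
    ∃ m : ℕ, ∀ (i : ι) (γ : Gamma0 N), (γ : SL(2, ℤ)) ∈ Gamma (l ^ m) →
    ∃ γ' : Gamma0 N, (γ' : SL(2, ℤ)) ∈ Gamma (l ^ n) ∧
      x i * ((γ : SL(2, ℤ)) : Matrix (Fin 2) (Fin 2) ℤ) =
        ((γ' : SL(2, ℤ)) : Matrix (Fin 2) (Fin 2) ℤ) * x i ∧
      φ (Additive.ofMul γ') = φ (Additive.ofMul γ) := by
  choose f hf using fun i => h i n
  exact ⟨Finset.univ.sup f, fun i γ hγ =>
    hf i γ (Gamma_pow_mono (Finset.le_sup (Finset.mem_univ i)) hγ)⟩

theorem Stab.intRep_zero {N l : ℕ} (hl : l.Prime) (hlN : ¬ l ∣ N) (u : OnePoint (ZMod l)) :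
    Stab l (0 : Additive (Gamma0 N) →+ A) (intRep l u) := by
  induction u using OnePoint.rec with
  | infty => exact Stab.repInf hl hlN
  | coe j => exact Stab.repFin _

section pairs

variable {N q l : ℕ} (hN : 0 < N) (hq : q.Prime) (hqN : ¬ q ∣ N) (hl : l.Prime)
    (hl2 : l ≠ 2) (hlN : ¬ l ∣ N) (hlq : l ≠ q) {φ₁ : Additive (Gamma0 N) →+ A}
    (h₁ : IsParabolicHom (Gamma0 N) φ₁) (H : HasKappa (q : ℤ) (toQHom φ₁ h₁))

include hN hq hqN hl hl2 hlN hlq h₁ H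

theorem Stab.diagSq : Stab l φ₁ !![(l : ℤ) ^ 2, 0; 0, 1] := by
  have hcop : IsCoprime (l : ℤ) (N : ℤ) := by
    rw [Nat.isCoprime_iff_coprime]
    exact (Nat.Prime.coprime_iff_not_dvd hl).mpr hlN
  obtain ⟨d0, b0, h0⟩ := hcop
  have hg0 : (l : ℤ) * d0 - (-b0) * N = 1 := by linear_combination h0
  have hσ : (1 : ℤ) * 1 - 0 * (-(N * l : ℤ)) = 1 := by ring
  have hst := ((Stab.of_Gamma0 l φ₁ (mkG N l (-b0) N d0 hg0 (dvd_refl _))).mul
    (Stab.U hN hq hqN hl hl2 hlN hlq h₁ H b0)).mul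
    (Stab.of_Gamma0 l φ₁ (mkG N 1 0 (-(N * l : ℤ)) 1 hσ (Dvd.dvd.neg_right (Dvd.intro _ rfl))))
  have e : !![(l : ℤ) ^ 2, 0; 0, 1] =
      !![(l : ℤ), -b0; (N : ℤ), d0] * !![(l : ℤ), b0; 0, (l : ℤ)] * !![1, 0; -(N * l : ℤ), 1] := by
    rw [Matrix.mul_fin_two, Matrix.mul_fin_two]
    congr 1
    · congr 1
      · ext i; fin_cases i
        · simp; ring
        · simp; ring
      · congr 1
        ext i; fin_cases i
        · simp; linear_combination ((N : ℤ) * l) * h0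
        · simp; linear_combination (-1 : ℤ) * h0
  rw [e]
  exact hst

theorem Stab.diagSq' (b : ℤ) : Stab l φ₁ !![1, b; 0, (l : ℤ) ^ 2] := by
  have hcop : IsCoprime (l : ℤ) (N : ℤ) := by
    rw [Nat.isCoprime_iff_coprime]
    exact (Nat.Prime.coprime_iff_not_dvd hl).mpr hlN
  obtain ⟨d0, b0, h0⟩ := hcop
  -- `g0⁻¹ = (d0, b0; -N, l)`
  have hg0 : d0 * (l : ℤ) - b0 * (-(N : ℤ)) = 1 := by linear_combination h0
  have hσ : (1 : ℤ) * 1 - 0 * ((N * l : ℤ)) = 1 := by ring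
  have hτ : (1 : ℤ) * 1 - b * 0 = 1 := by ring
  have hst := (((Stab.of_Gamma0 l φ₁ (mkG N 1 0 ((N * l : ℤ)) 1 hσ (Dvd.intro _ rfl))).mul
    (Stab.U hN hq hqN hl hl2 hlN hlq h₁ H (-b0))).mul
    (Stab.of_Gamma0 l φ₁ (mkG N d0 b0 (-(N : ℤ)) l hg0 (Dvd.dvd.neg_right (dvd_refl _))))).mul
    (Stab.of_Gamma0 l φ₁ (mkG N 1 b 0 1 hτ (dvd_zero _)))
  have e : !![1, b; 0, (l : ℤ) ^ 2] =
      !![1, 0; (N * l : ℤ), 1] * !![(l : ℤ), -b0; 0, (l : ℤ)] * !![d0, b0; -(N : ℤ), (l : ℤ)] *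
        !![1, b; 0, 1] := by
    rw [Matrix.mul_fin_two, Matrix.mul_fin_two, Matrix.mul_fin_two]
    congr 1
    · congr 1
      · ext i; fin_cases i
        · simp; linear_combination (-1 : ℤ) * h0
        · simp; linear_combination (-b) * h0
      · congr 1
        ext i; fin_cases i
        · simp; linear_combination (-(N : ℤ) * l) * h0
        · simp; linear_combination (-(N : ℤ) * l * b) * h0
  rw [e]
  exact hst

theorem Stab.pair (x y : OnePoint (ZMod l)) : Stab l φ₁ (intRep l y * intRep l x) := by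
  induction y using OnePoint.rec with
  | infty =>
    induction x using OnePoint.rec with
    | infty =>
      have e : intRep l (OnePoint.infty) * intRep l (OnePoint.infty) =
          !![(l : ℤ) ^ 2, 0; 0, 1] := by
        show !![(l : ℤ), 0; 0, 1] * !![(l : ℤ), 0; 0, 1] = _
        rw [Matrix.mul_fin_two]
        simp [sq]
      rw [e]
      exact Stab.diagSq hN hq hqN hl hl2 hlN hlq h₁ H
    | coe j =>
      have e : intRep l (OnePoint.infty) * intRep l (j : OnePoint (ZMod l)) =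
          !![(l : ℤ), (l : ℤ) * j.val; 0, (l : ℤ)] := by
        show !![(l : ℤ), 0; 0, 1] * !![1, (j.val : ℤ); 0, (l : ℤ)] = _
        rw [Matrix.mul_fin_two]
        simp
      rw [e]
      exact Stab.U hN hq hqN hl hl2 hlN hlq h₁ H _
  | coe j' =>
    induction x using OnePoint.rec with
    | infty =>
      have e : intRep l (j' : OnePoint (ZMod l)) * intRep l (OnePoint.infty) =
          !![(l : ℤ), (j'.val : ℤ); 0, (l : ℤ)] := by
        show !![1, (j'.val : ℤ); 0, (l : ℤ)] * !![(l : ℤ), 0; 0, 1] = _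
        rw [Matrix.mul_fin_two]
        simp
      rw [e]
      exact Stab.U hN hq hqN hl hl2 hlN hlq h₁ H _
    | coe j =>
      have e : intRep l (j' : OnePoint (ZMod l)) * intRep l (j : OnePoint (ZMod l)) =
          !![1, (j.val : ℤ) + j'.val * l; 0, (l : ℤ) ^ 2] := by
        show !![1, (j'.val : ℤ); 0, (l : ℤ)] * !![1, (j.val : ℤ); 0, (l : ℤ)] = _
        rw [Matrix.mul_fin_two]
        simp [sq]
      rw [e]
      exact Stab.diagSq' hN hq hqN hl hl2 hlN hlq h₁ H _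

/-- **Weak Ihara lemma**, for any Hecke datum realised by the standard representatives. -/
theorem T_sq_eq (D : HeckeDatum (Gamma0 N)) (α : D.ι → GL (Fin 2) ℝ)
    (hD : D.IsRep (incl N) α) (e : D.ι ≃ OnePoint (ZMod l)) (hα : ∀ x, α x = heckeRep l (e x)) :
    D.T A (D.T A φ₁) = ((l + 1) ^ 2) • φ₁ := by
  have hspec : ∀ (γ : Gamma0 N) (x : D.ι), α x * mapGL ℝ (γ : SL(2, ℤ)) =
      mapGL ℝ ((D.coc γ x : Gamma0 N) : SL(2, ℤ)) * α (D.perm γ x) := fun γ x => hD.spec γ x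
  have hpar1 : IsParabolicHom (Gamma0 N) (D.T A φ₁) := isParabolicHom_of_datum D α hspec φ₁ h₁
  have hpar2 : IsParabolicHom (Gamma0 N) (D.T A (D.T A φ₁)) :=
    isParabolicHom_of_datum D α hspec _ hpar1
  have hχ : IsParabolicHom (Gamma0 N) (D.T A (D.T A φ₁) - ((l + 1) ^ 2) • φ₁) := by
    intro γ hγ
    rw [AddMonoidHom.sub_apply, AddMonoidHom.nsmul_apply, hpar2 γ hγ, h₁ γ hγ]
    simp
  have hcard : Fintype.card D.ι = l + 1 := by
    have : NeZero l := ⟨hl.ne_zero⟩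
    rw [← Nat.card_eq_fintype_card, Nat.card_congr e]
    show Nat.card (Option (ZMod l)) = l + 1
    rw [Finite.card_option, Nat.card_zmod]
  have hval : ∀ x : D.ι, ((α x : GL (Fin 2) ℝ) : Matrix (Fin 2) (Fin 2) ℝ) =
      (intRep l (e x)).map (Int.cast : ℤ → ℝ) := fun x => by
    rw [hα, heckeRep_val hl.ne_zero]
  obtain ⟨m1, hm1⟩ := Stab.uniform (φ := (0 : Additive (Gamma0 N) →+ A))
    (fun y : D.ι => intRep l (e y)) (fun y => Stab.intRep_zero hl hlN _) 0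
  obtain ⟨m2, hm2⟩ := Stab.uniform (φ := (0 : Additive (Gamma0 N) →+ A))
    (fun x : D.ι => intRep l (e x)) (fun x => Stab.intRep_zero hl hlN _) m1
  obtain ⟨m3, hm3⟩ := Stab.uniform (φ := φ₁)
    (fun p : D.ι × D.ι => intRep l (e p.2) * intRep l (e p.1))
    (fun p => Stab.pair hN hq hqN hl hl2 hlN hlq h₁ H _ _) 0
  have hzero : D.T A (D.T A φ₁) - ((l + 1) ^ 2) • φ₁ = 0 := by
    refine eq_zero_of_deep hl hlN (max m2 m3) hχ (fun γ hγ => ?_)
    have key : ∀ x y : D.ι, φ₁ (Additive.ofMul (D.coc (D.coc γ x) y)) = φ₁ (Additive.ofMul γ) := by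
      intro x y
      obtain ⟨γx, hγx, ex, -⟩ := hm2 x γ (Gamma_pow_mono (le_max_left _ _) hγ)
      obtain ⟨γxy, -, exy, -⟩ := hm1 y γx hγx
      obtain ⟨γ'', -, e'', f''⟩ := hm3 (x, y) γ (Gamma_pow_mono (le_max_right _ _) hγ)
      have g1 : α x * incl N γ = incl N γx * α x := gl_rel (hval x) ex
      have g2 : α y * incl N γx = incl N γxy * α y := gl_rel (hval y) exy
      have g3 : (α y * α x) * incl N γ = incl N γ'' * (α y * α x) :=
        gl_rel (by rw [Units.val_mul, hval, hval, ← Matrix.map_mul_intCast]) e''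
      have u1 := (hD.unique g1).2
      have u2 := (hD.unique g2).2
      have g4 : incl N γ'' = incl N γxy := by
        apply mul_right_cancel (b := α y * α x)
        rw [← g3, mul_assoc, g1, ← mul_assoc, g2, mul_assoc]
      have u3 : γ'' = γxy := incl_injective N g4
      rw [← u1, ← u2, ← u3, f'']
    rw [AddMonoidHom.sub_apply, AddMonoidHom.nsmul_apply, HeckeDatum.T_apply]
    simp only [HeckeDatum.T_apply, key, Finset.sum_const, Finset.card_univ, hcard]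
    rw [← mul_nsmul, ← sq, sub_self]
  exact sub_eq_zero.mp hzero

theorem cohT_sq_eq :
    cohT N hl hlN A (cohT N hl hlN A φ₁) = ((l + 1) ^ 2) • φ₁ :=
  T_sq_eq hN hq hqN hl hl2 hlN hlq h₁ H (datumT N hl hlN) (repT N hl hlN)
    (isRep_datumT N hl hlN) (datumT_equiv N hl hlN) (fun _ => rfl)

end pairs

/-- **Weak Ihara lemma** for `GAL.HK.cohT`, first component. -/
theorem weak_ihara {N q l : ℕ} (hN : 0 < N) (hq : q.Prime) (hqN : ¬ q ∣ N) (hl : l.Prime)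
    (hl2 : l ≠ 2) (hlN : ¬ l ∣ N) (hlq : l ≠ q) {φ₁ φ₂ : Additive (Gamma0 N) →+ A}
    (h₁ : IsParabolicHom (Gamma0 N) φ₁) (h₂ : IsParabolicHom (Gamma0 N) φ₂)
    (H : GluedHom q φ₁ φ₂) :
    cohT N hl hlN A (cohT N hl hlN A φ₁) = ((l + 1) ^ 2) • φ₁ :=
  cohT_sq_eq hN hq hqN hl hl2 hlN hlq h₁ (H.hasKappa₁ hq hqN h₁ h₂)

/-- **Weak Ihara lemma** for `GAL.HK.cohT`, second component. -/
theorem weak_ihara₂ {N q l : ℕ} (hN : 0 < N) (hq : q.Prime) (hqN : ¬ q ∣ N) (hl : l.Prime)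
    (hl2 : l ≠ 2) (hlN : ¬ l ∣ N) (hlq : l ≠ q) {φ₁ φ₂ : Additive (Gamma0 N) →+ A}
    (h₁ : IsParabolicHom (Gamma0 N) φ₁) (h₂ : IsParabolicHom (Gamma0 N) φ₂)
    (H : GluedHom q φ₁ φ₂) :
    cohT N hl hlN A (cohT N hl hlN A φ₂) = ((l + 1) ^ 2) • φ₂ :=
  cohT_sq_eq hN hq hqN hl hl2 hlN hlq h₂ (H.hasKappa₂ hq hqN h₁ h₂)

end Fermat.Agent.S41.Ihara
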