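import Fermat.Agent.S41.Ihara.LemmaX
import Fermat.Prelude.Def_ModularCurve_PeriodMap

/-!
# S41 / Ihara : (A)+(B) for honest homomorphisms `Additive (Gamma0 N) →+ A`
-/

set_option autoImplicit false

open CongruenceSubgroup ModularCurve.Period
open scoped MatrixGroups

namespace Fermat.Agent.S41.Ihara

variable {A : Type*} [AddCommGroup A]

/-- the element of `Γ₀(N)` with given entries. -/
def mkS (a b c d : ℤ) (h : a * d - b * c = 1) : SL(2, ℤ) :=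
  ⟨!![a, b; c, d], by rw [Matrix.det_fin_two_of]; exact h⟩

/-- the element of `Γ₀(N)` with given entries. -/
def mkG (N : ℕ) (a b c d : ℤ) (h : a * d - b * c = 1) (hN : (N : ℤ) ∣ c) : Gamma0 N :=
  ⟨mkS a b c d h, by
    rw [Gamma0_mem]
    exact (ZMod.intCast_zmod_eq_zero_iff_dvd c N).mpr hN⟩

@[simp] theorem mkG_00 (N : ℕ) (a b c d : ℤ) (h : a * d - b * c = 1) (hN : (N : ℤ) ∣ c) :
    ((mkG N a b c d h hN : Gamma0 N) : SL(2, ℤ)) 0 0 = a := rfl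
@[simp] theorem mkG_01 (N : ℕ) (a b c d : ℤ) (h : a * d - b * c = 1) (hN : (N : ℤ) ∣ c) :
    ((mkG N a b c d h hN : Gamma0 N) : SL(2, ℤ)) 0 1 = b := rfl
@[simp] theorem mkG_10 (N : ℕ) (a b c d : ℤ) (h : a * d - b * c = 1) (hN : (N : ℤ) ∣ c) :
    ((mkG N a b c d h hN : Gamma0 N) : SL(2, ℤ)) 1 0 = c := rfl
@[simp] theorem mkG_11 (N : ℕ) (a b c d : ℤ) (h : a * d - b * c = 1) (hN : (N : ℤ) ∣ c) :
    ((mkG N a b c d h hN : Gamma0 N) : SL(2, ℤ)) 1 1 = d := rfl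

theorem Gamma0_ext {N : ℕ} {g g' : Gamma0 N}
    (h00 : (g : SL(2, ℤ)) 0 0 = (g' : SL(2, ℤ)) 0 0) (h01 : (g : SL(2, ℤ)) 0 1 = (g' : SL(2, ℤ)) 0 1)
    (h10 : (g : SL(2, ℤ)) 1 0 = (g' : SL(2, ℤ)) 1 0)
    (h11 : (g : SL(2, ℤ)) 1 1 = (g' : SL(2, ℤ)) 1 1) : g = g' := by
  apply Subtype.ext
  ext i j
  fin_cases i <;> fin_cases j
  · exact h00
  · exact h01
  · exact h10
  · exact h11

theorem Gamma0_det {N : ℕ} (g : Gamma0 N) :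
    (g : SL(2, ℤ)) 0 0 * (g : SL(2, ℤ)) 1 1 - (g : SL(2, ℤ)) 0 1 * (g : SL(2, ℤ)) 1 0 = 1 := by
  have := (g : SL(2, ℤ)).det_coe
  rwa [Matrix.det_fin_two] at this

theorem Gamma0_dvd {N : ℕ} (g : Gamma0 N) : (N : ℤ) ∣ (g : SL(2, ℤ)) 1 0 := by
  have := g.2
  rw [Gamma0_mem] at this
  exact (ZMod.intCast_zmod_eq_zero_iff_dvd _ N).mp this

theorem mkG_eq {N : ℕ} (g : Gamma0 N) :
    mkG N ((g : SL(2, ℤ)) 0 0) ((g : SL(2, ℤ)) 0 1) ((g : SL(2, ℤ)) 1 0) ((g : SL(2, ℤ)) 1 1)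
      (Gamma0_det g) (Gamma0_dvd g) = g :=
  Gamma0_ext rfl rfl rfl rfl

open Classical in
/-- the quadruple function of a parabolic homomorphism. -/
noncomputable def toQHom {N : ℕ} (φ : Additive (Gamma0 N) →+ A)
    (hφ : IsParabolicHom (Gamma0 N) φ) : QHom (N : ℤ) A where
  f a b c d := if h : a * d - b * c = 1 ∧ (N : ℤ) ∣ c then
    φ (Additive.ofMul (mkG N a b c d h.1 h.2)) else 0
  mul := by
    intro a b c d a' b' c' d' h hN h' hN'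
    have h1 : (a * a' + b * c') * (c * b' + d * d') - (a * b' + b * d') * (c * a' + d * c') = 1 := by
      linear_combination (a' * d' - b' * c') * h + h'
    have h2 : (N : ℤ) ∣ c * a' + d * c' :=
      dvd_add (Dvd.dvd.mul_right hN _) (Dvd.dvd.mul_left hN' _)
    rw [dif_pos ⟨h1, h2⟩, dif_pos ⟨h, hN⟩, dif_pos ⟨h', hN'⟩, ← map_add, ← ofMul_mul]
    congr 2
    apply Gamma0_ext <;>
      simp [Matrix.mul_apply, Fin.sum_univ_two]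
  par := by
    intro a b c d h hN ht
    rw [dif_pos ⟨h, hN⟩]
    apply hφ
    rw [Matrix.trace_fin_two]
    have : ((mkG N a b c d h hN : Gamma0 N) : SL(2, ℤ)) 0 0 +
        ((mkG N a b c d h hN : Gamma0 N) : SL(2, ℤ)) 1 1 = 2 := by simpa using ht
    rw [this]; norm_num

theorem toQHom_f {N : ℕ} (φ : Additive (Gamma0 N) →+ A) (hφ : IsParabolicHom (Gamma0 N) φ)
    (g : Gamma0 N) :
    (toQHom φ hφ).f ((g : SL(2, ℤ)) 0 0) ((g : SL(2, ℤ)) 0 1) ((g : SL(2, ℤ)) 1 0)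
      ((g : SL(2, ℤ)) 1 1) = φ (Additive.ofMul g) := by
  show dite _ _ _ = _
  rw [dif_pos ⟨Gamma0_det g, Gamma0_dvd g⟩, mkG_eq]

theorem toQHom_k {N : ℕ} (φ : Additive (Gamma0 N) →+ A) (hφ : IsParabolicHom (Gamma0 N) φ)
    (g : Gamma0 N) :
    (toQHom φ hφ).k ((g : SL(2, ℤ)) 0 0) ((g : SL(2, ℤ)) 1 0) = φ (Additive.ofMul g) := by
  rw [← toQHom_f φ hφ g, (toQHom φ hφ).f_eq_k (Gamma0_det g) (Gamma0_dvd g)]

/-- The gluing hypothesis `φ₁(g) + φ₂(δ g δ⁻¹) = 0` on `Γ₀(Nq)`, `δ = diag(q,1)`, entrywise. -/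
def GluedHom {N : ℕ} (q : ℕ) (φ₁ φ₂ : Additive (Gamma0 N) →+ A) : Prop :=
  ∀ g g' : Gamma0 N, (g' : SL(2, ℤ)) 0 0 = (g : SL(2, ℤ)) 0 0 →
    (g' : SL(2, ℤ)) 0 1 = q * (g : SL(2, ℤ)) 0 1 →
    (g : SL(2, ℤ)) 1 0 = q * (g' : SL(2, ℤ)) 1 0 →
    (g' : SL(2, ℤ)) 1 1 = (g : SL(2, ℤ)) 1 1 →
    φ₁ (Additive.ofMul g) + φ₂ (Additive.ofMul g') = 0

theorem GluedHom.glued {N q : ℕ} {φ₁ φ₂ : Additive (Gamma0 N) →+ A}
    (h₁ : IsParabolicHom (Gamma0 N) φ₁) (h₂ : IsParabolicHom (Gamma0 N) φ₂)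
    (H : GluedHom q φ₁ φ₂) : Glued (q : ℤ) (toQHom φ₁ h₁) (toQHom φ₂ h₂) := by
  intro a b c d h hN
  have e1 : a * d - b * (q * c) = 1 := by linear_combination h
  have e2 : a * d - (q * b) * c = 1 := by linear_combination h
  have := H (mkG N a b (q * c) d e1 (Dvd.dvd.mul_left hN _)) (mkG N a (q * b) c d e2 hN)
    rfl rfl rfl rfl
  rw [← toQHom_f φ₁ h₁, ← toQHom_f φ₂ h₂] at this
  exact this

theorem isCoprime_of_prime_not_dvd {q N : ℕ} (hq : q.Prime) (hqN : ¬ q ∣ N) :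
    IsCoprime (q : ℤ) (N : ℤ) := by
  rw [Nat.isCoprime_iff_coprime, Nat.Prime.coprime_iff_not_dvd hq]
  exact hqN

theorem GluedHom.hasKappa₁ {N q : ℕ} (hq : q.Prime) (hqN : ¬ q ∣ N)
    {φ₁ φ₂ : Additive (Gamma0 N) →+ A}
    (h₁ : IsParabolicHom (Gamma0 N) φ₁) (h₂ : IsParabolicHom (Gamma0 N) φ₂)
    (H : GluedHom q φ₁ φ₂) : HasKappa (q : ℤ) (toQHom φ₁ h₁) :=
  (H.glued h₁ h₂).exists_kappa (isCoprime_of_prime_not_dvd hq hqN)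

theorem GluedHom.hasKappa₂ {N q : ℕ} (hq : q.Prime) (hqN : ¬ q ∣ N)
    {φ₁ φ₂ : Additive (Gamma0 N) →+ A}
    (h₁ : IsParabolicHom (Gamma0 N) φ₁) (h₂ : IsParabolicHom (Gamma0 N) φ₂)
    (H : GluedHom q φ₁ φ₂) : HasKappa (q : ℤ) (toQHom φ₂ h₂) :=
  (H.glued h₁ h₂).exists_kappa₂ (isCoprime_of_prime_not_dvd hq hqN)

/-- **(A)+(B), export.**  `φ₁` is invariant under `(a, c) ↦ (a + c/ℓ, c)` on first columns with
`ℓ^n ∣ c`; in particular `φ₁(τ g τ⁻¹) = φ₁(g)` for `τ = (1 1/ℓ; 0 1)`, `g ∈ Γ₀(N) ∩ Γ(ℓ^n)`. -/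
theorem conj_tau_inv {N q l : ℕ} (hN : 0 < N) (hq : q.Prime) (hqN : ¬ q ∣ N) (hl : l.Prime)
    (hl2 : l ≠ 2) (hlN : ¬ l ∣ N) (hlq : l ≠ q) {φ₁ φ₂ : Additive (Gamma0 N) →+ A}
    (h₁ : IsParabolicHom (Gamma0 N) φ₁) (h₂ : IsParabolicHom (Gamma0 N) φ₂)
    (H : GluedHom q φ₁ φ₂) :
    ∃ n : ℕ, ∀ g g' : Gamma0 N, (l : ℤ) ^ n ∣ (g : SL(2, ℤ)) 1 0 →
      (g' : SL(2, ℤ)) 1 0 = (g : SL(2, ℤ)) 1 0 →
      (l : ℤ) * ((g' : SL(2, ℤ)) 0 0 - (g : SL(2, ℤ)) 0 0) = (g : SL(2, ℤ)) 1 0 →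
      φ₁ (Additive.ofMul g') = φ₁ (Additive.ofMul g) := by
  obtain ⟨e, he⟩ := lemmaX hN hq hqN hl hl2 hlN hlq (H.hasKappa₁ hq hqN h₁ h₂)
  refine ⟨e + 2, fun g g' hg h10 h00 => ?_⟩
  have hlNc : IsCoprime (N : ℤ) ((l : ℤ) ^ (e + 2)) := by
    apply IsCoprime.pow_right
    rw [Nat.isCoprime_iff_coprime]
    exact ((Nat.Prime.coprime_iff_not_dvd hl).mpr hlN).symm
  obtain ⟨c, hc⟩ := IsCoprime.mul_dvd hlNc (Gamma0_dvd g) hg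
  have hcop : IsCoprime ((g : SL(2, ℤ)) 0 0) ((N : ℤ) * (l : ℤ) ^ (e + 2) * c) := by
    rw [← hc]
    exact ⟨(g : SL(2, ℤ)) 1 1, -(g : SL(2, ℤ)) 0 1, by linear_combination Gamma0_det g⟩
  have hl0 : (l : ℤ) ≠ 0 := by exact_mod_cast hl.ne_zero
  have h00' : (g' : SL(2, ℤ)) 0 0 = (g : SL(2, ℤ)) 0 0 + N * (l : ℤ) ^ (e + 1) * c := by
    apply mul_left_cancel₀ hl0
    rw [hc] at h00
    linear_combination h00
  rw [← toQHom_k φ₁ h₁ g', ← toQHom_k φ₁ h₁ g, h10, h00', hc]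
  exact he _ _ hcop

end Fermat.Agent.S41.Ihara
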