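import Fermat.Agent.S41.Ihara.Export

/-!
# S41 / Ihara (C3) : a parabolic homomorphism on `Γ₀(N)` which vanishes on `Γ₀(N) ∩ Γ(ℓ^m)`
(`ℓ ∤ N`) is zero.
-/

set_option autoImplicit false

open CongruenceSubgroup ModularCurve.Period
open scoped MatrixGroups

namespace Fermat.Agent.S41.Ihara

variable {A : Type*} [AddCommGroup A]

/-- entrywise description of `Γ(L)`. -/
theorem mem_Gamma_iff_dvd {L : ℕ} (g : SL(2, ℤ)) :
    g ∈ Gamma L ↔ (L : ℤ) ∣ g 0 0 - 1 ∧ (L : ℤ) ∣ g 0 1 ∧ (L : ℤ) ∣ g 1 0 ∧ (L : ℤ) ∣ g 1 1 - 1 := by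
  rw [Gamma_mem]
  have h1 : ∀ x : ℤ, ((x : ZMod L) = 1 ↔ (L : ℤ) ∣ x - 1) := by
    intro x
    rw [← ZMod.intCast_zmod_eq_zero_iff_dvd]
    push_cast
    exact sub_eq_zero.symm
  rw [h1, h1, ZMod.intCast_zmod_eq_zero_iff_dvd, ZMod.intCast_zmod_eq_zero_iff_dvd]

theorem nt_solve' {u L : ℤ} (v : ℤ) (h : IsCoprime u L) : ∃ i : ℤ, L ∣ v - i * u := by
  obtain ⟨r, s, hrs⟩ := h
  exact ⟨r * v, s * v, by linear_combination (-v) * hrs⟩

/-- **(C3)** -/
theorem eq_zero_of_deep {N l : ℕ} (hl : l.Prime) (hlN : ¬ l ∣ N) (m : ℕ)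
    {χ : Additive (Gamma0 N) →+ A} (hχ : IsParabolicHom (Gamma0 N) χ)
    (hdeep : ∀ g : Gamma0 N, (g : SL(2, ℤ)) ∈ Gamma (l ^ m) → χ (Additive.ofMul g) = 0) :
    χ = 0 := by
  set F := toQHom χ hχ with hF
  set L : ℤ := (l : ℤ) ^ m with hL
  have hlprime : Prime (l : ℤ) := Nat.prime_iff_prime_int.mp hl
  have hNL : IsCoprime (N : ℤ) L := by
    apply IsCoprime.pow_right
    rw [Nat.isCoprime_iff_coprime]
    exact ((Nat.Prime.coprime_iff_not_dvd hl).mpr hlN).symm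
  -- step 0
  have step0 : ∀ a c : ℤ, IsCoprime a c → (N : ℤ) ∣ c → L ∣ a - 1 → L ∣ c → F.k a c = 0 := by
    intro a c hcop hc ha hcL
    obtain ⟨b0, d0, h0⟩ := QHom.exists_f_eq_k hcop
    have haL : IsCoprime a L := by
      obtain ⟨y, hy⟩ := ha
      exact ⟨1, -y, by linear_combination hy⟩
    obtain ⟨j, hj⟩ := nt_solve' b0 haL
    have hdet : a * (d0 - j * c) - (b0 - j * a) * c = 1 := by linear_combination h0
    have hg := hdeep (mkG N a (b0 - j * a) c (d0 - j * c) hdet hc) (by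
      rw [mem_Gamma_iff_dvd]
      push_cast
      refine ⟨ha, hj, hcL, ?_⟩
      show L ∣ (d0 - j * c) - 1
      obtain ⟨y, hy⟩ := ha
      obtain ⟨y', hy'⟩ := hcL
      refine ⟨-y * (d0 - j * c) + (b0 - j * a) * y', ?_⟩
      linear_combination hdet - (d0 - j * c) * hy + (b0 - j * a) * hy')
    rw [← toQHom_k χ hχ] at hg
    exact hg
  -- case `a` coprime to `L`
  have step1 : ∀ a c : ℤ, IsCoprime a c → (N : ℤ) ∣ c → IsCoprime a L → F.k a c = 0 := by
    intro a c hcop hc haL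
    obtain ⟨t2, ht2⟩ := nt_solve' ((N : ℤ) - c) (hNL.mul_left haL)
    set c1 : ℤ := c + ((N : ℤ) * t2) * a with hc1
    have e2 : F.k a c1 = F.k a c := F.k_add_mul' _ (Dvd.intro _ rfl) hcop hc
    have hcop1 : IsCoprime a c1 := (IsCoprime.add_mul_right_left hcop.symm _).symm
    have hc1N : (N : ℤ) ∣ c1 := dvd_add hc (Dvd.dvd.mul_right (Dvd.intro _ rfl) _)
    have hc1L : IsCoprime c1 L := by
      obtain ⟨y, hy⟩ := ht2
      have : c1 = N + (-y) * L := by rw [hc1]; linear_combination -hy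
      rw [this]
      exact IsCoprime.add_mul_right_left hNL _
    obtain ⟨t3, ht3⟩ := nt_solve' (1 - a) hc1L
    set a1 : ℤ := a + t3 * c1 with ha1
    have e3 : F.k a1 c1 = F.k a c1 := F.k_add_mul _ hcop1 hc1N
    have hcop2 : IsCoprime a1 c1 := IsCoprime.add_mul_right_left hcop1 _
    have ha1L' : L ∣ a1 - 1 := by
      obtain ⟨y, hy⟩ := ht3
      exact ⟨-y, by rw [ha1]; linear_combination -hy⟩
    have ha1L : IsCoprime a1 L := by
      obtain ⟨y, hy⟩ := ha1L'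
      exact ⟨1, -y, by linear_combination hy⟩
    obtain ⟨t4, ht4⟩ := nt_solve' (-c1) (hNL.mul_left ha1L)
    set c2 : ℤ := c1 + ((N : ℤ) * t4) * a1 with hc2
    have e4 : F.k a1 c2 = F.k a1 c1 := F.k_add_mul' _ (Dvd.intro _ rfl) hcop2 hc1N
    have hcop3 : IsCoprime a1 c2 := (IsCoprime.add_mul_right_left hcop2.symm _).symm
    have hc2N : (N : ℤ) ∣ c2 := dvd_add hc1N (Dvd.dvd.mul_right (Dvd.intro _ rfl) _)
    have hc2L : L ∣ c2 := by
      obtain ⟨y, hy⟩ := ht4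
      exact ⟨-y, by rw [hc2]; linear_combination -hy⟩
    rw [← e2, ← e3, ← e4]
    exact step0 a1 c2 hcop3 hc2N ha1L' hc2L
  -- general case
  have step2 : ∀ a c : ℤ, IsCoprime a c → (N : ℤ) ∣ c → F.k a c = 0 := by
    intro a c hcop hc
    by_cases hla : (l : ℤ) ∣ a
    · have hlc : ¬ (l : ℤ) ∣ c := by
        intro hlc
        exact hlprime.not_isUnit (hcop.isUnit_of_dvd' hla hlc)
      have e1 : F.k (a + 1 * c) c = F.k a c := F.k_add_mul _ hcop hc
      rw [← e1]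
      apply step1 _ _ (IsCoprime.add_mul_right_left hcop _) hc
      apply IsCoprime.pow_right
      apply ((Prime.coprime_iff_not_dvd hlprime).mpr _).symm
      intro h
      apply hlc
      have := dvd_sub h hla
      simpa using this
    · exact step1 a c hcop hc (((Prime.coprime_iff_not_dvd hlprime).mpr hla).symm.pow_right)
  refine AddMonoidHom.ext fun g => ?_
  obtain ⟨g, rfl⟩ := Additive.ofMul.surjective g
  rw [← toQHom_k χ hχ g]
  exact step2 _ _ ⟨(g : SL(2, ℤ)) 1 1, -(g : SL(2, ℤ)) 0 1, by linear_combination Gamma0_det g⟩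
    (Gamma0_dvd g)

end Fermat.Agent.S41.Ihara
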