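import Fermat.Agent.S41.Ihara.QHom

/-!
# S41 / Ihara (A) : gluing

`F₁, F₂` parabolic homomorphisms on `Γ₀(N)` with `F₁(g) + F₂(δ g δ⁻¹) = 0` on `Γ₀(Nq)`,
`δ = diag(q,1)`.  Consequence (this replaces the amalgam `Γ₀(N)[1/q]`):
`k₁(q² a, c) = k₁(a, c) + κ` for a constant `κ`, and `j • κ = 0` as soon as `q^(2j) ≡ 1 mod N`.
-/

set_option autoImplicit false

namespace Fermat.Agent.S41.Ihara

variable {N : ℤ} {A : Type*} [AddCommGroup A]

/-- the gluing hypothesis. -/
def Glued (q : ℤ) (F₁ F₂ : QHom N A) : Prop :=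
  ∀ a b c d : ℤ, a * d - q * b * c = 1 → N ∣ c → F₁.f a b (q * c) d + F₂.f a (q * b) c d = 0

namespace Glued

variable {q : ℤ} {F₁ F₂ : QHom N A}

theorem glue0 (H : Glued q F₁ F₂) {a c : ℤ} (hcop : IsCoprime a (q * c)) (hc : N ∣ c) :
    F₁.k a (q * c) + F₂.k a c = 0 := by
  obtain ⟨b, d, hbd⟩ := QHom.exists_f_eq_k hcop
  rw [← F₁.f_eq_k hbd (Dvd.dvd.mul_left hc _),
    ← F₂.f_eq_k (b := q * b) (d := d) (by linear_combination hbd) hc]
  exact H a b c d (by linear_combination hbd) hc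

/-- the auxiliary quantity is constant. -/
theorem glue1_aux (H : Glued q F₁ F₂) {a b c d a' b' c' d' : ℤ}
    (h : q * a * d - b * c = 1) (hc : N ∣ c) (h' : q * a' * d' - b' * c' = 1) (hc' : N ∣ c') :
    F₁.f a' b' c' (q * d') + F₂.f (q * a') b' c' d' =
      F₁.f a b c (q * d) + F₂.f (q * a) b c d := by
  -- `P Q; qR S`
  have hR : N ∣ c' * d - d' * c := dvd_sub (Dvd.dvd.mul_right hc' _) (Dvd.dvd.mul_left hc _)
  have hdet : (q * a' * d - b' * c) * (-c' * b + q * d' * a) -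
      q * (-a' * b + b' * a) * (c' * d - d' * c) = 1 := by
    linear_combination (q * a * d - b * c) * h' + h
  have hG := H (q * a' * d - b' * c) (-a' * b + b' * a) (c' * d - d' * c)
    (-c' * b + q * d' * a) hdet hR
  have e1 : F₁.f a' b' c' (q * d') =
      F₁.f (q * a' * d - b' * c) (-a' * b + b' * a) (q * (c' * d - d' * c))
        (-c' * b + q * d' * a) + F₁.f a b c (q * d) :=
    F₁.mul_eq (by linear_combination hdet) (Dvd.dvd.mul_left hR _) (by linear_combination h) hc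
      (by linear_combination (-a') * h) (by linear_combination (-b') * h)
      (by linear_combination (-c') * h) (by linear_combination (-q * d') * h)
  have e2 : F₂.f (q * a') b' c' d' =
      F₂.f (q * a' * d - b' * c) (q * (-a' * b + b' * a)) (c' * d - d' * c)
        (-c' * b + q * d' * a) + F₂.f (q * a) b c d :=
    F₂.mul_eq (by linear_combination hdet) hR (by linear_combination h) hc
      (by linear_combination (-q * a') * h) (by linear_combination (-b') * h)
      (by linear_combination (-c') * h) (by linear_combination (-d') * h)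
  rw [e1, e2]
  have : ∀ x y u v : A, x + y = 0 → x + u + (y + v) = u + v := by
    intro x y u v hxy
    rw [add_add_add_comm, hxy, zero_add]
  exact this _ _ _ _ hG

theorem glue1 (H : Glued q F₁ F₂) {a c a' c' : ℤ} (hcop : IsCoprime (q * a) c) (hc : N ∣ c)
    (hcop' : IsCoprime (q * a') c') (hc' : N ∣ c') :
    F₁.k a' c' + F₂.k (q * a') c' = F₁.k a c + F₂.k (q * a) c := by
  obtain ⟨b, d, hbd⟩ := QHom.exists_f_eq_k hcop
  obtain ⟨b', d', hbd'⟩ := QHom.exists_f_eq_k hcop'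
  rw [← F₁.f_eq_k (b := b) (d := q * d) (by linear_combination hbd) hc, ← F₂.f_eq_k hbd hc,
    ← F₁.f_eq_k (b := b') (d := q * d') (by linear_combination hbd') hc', ← F₂.f_eq_k hbd' hc']
  exact H.glue1_aux hbd hc hbd' hc'

/-- **(A)** : `k₁(q² a, c) = k₁(a, c) + κ`. -/
theorem exists_kappa (H : Glued q F₁ F₂) (hqN : IsCoprime q N) :
    ∃ κ : A, ∀ a c : ℤ, IsCoprime (q * a) c → N ∣ c → F₁.k (q ^ 2 * a) c = F₁.k a c + κ := by
  obtain ⟨d0, b0', h0⟩ := hqN
  -- `g0 = (q, b0; N, d0)`, `b0 = - b0'`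
  have hg0 : q * d0 - (-b0') * N = 1 := by linear_combination h0
  have hqN' : IsCoprime (q * 1) N := ⟨d0, b0', by linear_combination h0⟩
  refine ⟨F₁.f q (-b0') N d0 - (F₁.k 1 N + F₂.k (q * 1) N), fun a c hcop hc => ?_⟩
  have hac : IsCoprime a c := hcop.of_mul_left_right
  have hqc : IsCoprime q c := hcop.of_mul_left_left
  set c1 : ℤ := c + (-(N * q)) * a with hc1
  have hc1N : N ∣ c1 := dvd_add hc (Dvd.dvd.mul_right (Dvd.dvd.neg_right (Dvd.intro _ rfl)) _)
  have s1 : F₁.k a c1 = F₁.k a c :=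
    F₁.k_add_mul' _ (Dvd.dvd.neg_right (Dvd.intro _ rfl)) hac hc
  have hcop1 : IsCoprime (q * a) c1 := by
    have : c1 = c + (-N) * (q * a) := by rw [hc1]; ring
    rw [this]
    exact IsCoprime.add_mul_left_right hcop (-N) |> fun h => by simpa [mul_comm] using h
  have s2 := H.glue1 hqN' (dvd_refl N) hcop1 hc1N
  set a' : ℤ := q * a + b0' * c1 with ha'
  have s3 : F₂.k a' c1 = F₂.k (q * a) c1 := F₂.k_add_mul _ hcop1 hc1N
  have hqc1 : IsCoprime q c1 := hcop1.of_mul_left_left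
  have hqb0 : IsCoprime q b0' := ⟨d0, N, by linear_combination h0⟩
  have hcop2 : IsCoprime a' (q * c1) := by
    apply IsCoprime.mul_right
    · -- a' coprime to q
      have h1 : IsCoprime (b0' * c1) q := (hqb0.symm.mul_left hqc1.symm)
      have : a' = b0' * c1 + a * q := by rw [ha']; ring
      rw [this]
      exact IsCoprime.add_mul_right_left h1 a
    · have : a' = q * a + b0' * c1 := ha'
      rw [this]
      exact IsCoprime.add_mul_right_left hcop1 b0'
  have s4 := H.glue0 hcop2 hc1N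
  have s5 : F₁.k (q ^ 2 * a) c = F₁.k a' (q * c1) + F₁.f q (-b0') N d0 :=
    F₁.k_smul hg0 (dvd_refl N) hcop2 (Dvd.dvd.mul_left hc1N _)
      (by rw [ha']; ring) (by rw [ha', hc1]; linear_combination (-(c - N * q * a)) * h0)
  rw [s5, ← s1]
  have e4 : F₁.k a' (q * c1) = - F₂.k a' c1 := eq_neg_of_add_eq_zero_left s4
  rw [e4, s3]
  have e2 : F₂.k (q * a) c1 = F₁.k 1 N + F₂.k (q * 1) N - F₁.k a c1 := by
    rw [← s2]; abel
  rw [e2]
  abel

/-- `k₂(q² a, c) = k₂(a, c) + κ₂`. -/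
theorem exists_kappa₂ (H : Glued q F₁ F₂) (hqN : IsCoprime q N) :
    ∃ κ : A, ∀ a c : ℤ, IsCoprime (q * a) c → N ∣ c → F₂.k (q ^ 2 * a) c = F₂.k a c + κ := by
  have hqN' : IsCoprime (q * 1) N := by simpa using hqN
  obtain ⟨d0, b0', h0⟩ := hqN
  -- `g = (d0, -b0'; N, q)`
  have hg : d0 * q - (-b0') * N = 1 := by linear_combination h0
  refine ⟨F₁.k 1 N + F₂.k (q * 1) N - F₂.f d0 (-b0') N q, fun a c hcop hc => ?_⟩
  have hqc : IsCoprime q c := hcop.of_mul_left_left
  have hq2 : IsCoprime (q ^ 2 * a) c := by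
    have : q ^ 2 * a = q * (q * a) := by ring
    rw [this]
    exact hqc.mul_left hcop
  set a1 : ℤ := q * a + b0' * c with ha1
  set C2 : ℤ := c * d0 - N * a with hC2
  have hC2N : N ∣ C2 := dvd_sub (Dvd.dvd.mul_right hc _) (Dvd.intro _ rfl)
  have e1 : q * a1 = q ^ 2 * a + (q * b0') * c := by rw [ha1]; ring
  have s1 : F₂.k (q * a1) c = F₂.k (q ^ 2 * a) c := by
    rw [e1]; exact F₂.k_add_mul _ hq2 hc
  have hcop1 : IsCoprime (q * a1) c := by
    rw [e1]; exact IsCoprime.add_mul_right_left hq2 _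
  have ha1c : IsCoprime a1 c := hcop1.of_mul_left_right
  have s2 := H.glue1 hqN' (dvd_refl N) hcop1 hc
  have e3 : q * C2 = c + (-N) * a1 := by
    rw [hC2, ha1]; linear_combination c * h0
  have s3 : F₁.k a1 (q * C2) = F₁.k a1 c := by
    rw [e3]; exact F₁.k_add_mul' _ (Dvd.dvd.neg_right (dvd_refl N)) ha1c hc
  have hcop2 : IsCoprime a1 (q * C2) := by
    rw [e3]; exact (IsCoprime.add_mul_right_left ha1c.symm _).symm
  have s4 := H.glue0 hcop2 hC2N
  have s5 : F₂.k a c = F₂.k a1 C2 + F₂.f d0 (-b0') N q :=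
    F₂.k_smul hg (dvd_refl N) hcop2.of_mul_right_right hC2N
      (by rw [ha1, hC2]; linear_combination (-a) * h0)
      (by rw [ha1, hC2]; linear_combination (-c) * h0)
  have e4 : F₂.k a1 C2 = - F₁.k a1 (q * C2) := eq_neg_of_add_eq_zero_right s4
  have e2 : F₂.k (q * a1) c = F₁.k 1 N + F₂.k (q * 1) N - F₁.k a1 c := by
    rw [← s2]; abel
  rw [← s1, e2, s5, e4, s3]
  abel

end Glued

/-- the only consequence of the gluing which is used later. -/
def HasKappa (q : ℤ) (F : QHom N A) : Prop :=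
  ∃ κ : A, ∀ a c : ℤ, IsCoprime (q * a) c → N ∣ c → F.k (q ^ 2 * a) c = F.k a c + κ

end Fermat.Agent.S41.Ihara
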