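import Fermat.Agent.S41.Ihara.Glue

/-!
# S41 / Ihara (B) : the key lemma X (centrality by the unit trick + Dirichlet)
-/

set_option autoImplicit false

namespace Fermat.Agent.S41.Ihara

variable {A : Type*} [AddCommGroup A]

namespace HasKappa

variable {N q : ℤ} {F₁ : QHom N A}

/-- the unit trick : `k₁(q^(2j) a, c) = k₁(a, c)` as soon as `q^(2j) ≡ 1 mod N`. -/
theorem k_pow_mul (H : HasKappa q F₁) (hqN : IsCoprime q N) {a c : ℤ}
    (hcop : IsCoprime (q * a) c) (hc : N ∣ c) {j : ℕ} (hj : N ∣ q ^ (2 * j) - 1) :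
    F₁.k (q ^ (2 * j) * a) c = F₁.k a c := by
  obtain ⟨κ, hκ⟩ := H
  have key : ∀ (j : ℕ) (a c : ℤ), IsCoprime (q * a) c → N ∣ c →
      F₁.k (q ^ (2 * j) * a) c = F₁.k a c + j • κ := by
    intro j
    induction j with
    | zero => intro a c _ _; simp
    | succ j ih =>
      intro a c hcop hc
      have hq : IsCoprime q c := hcop.of_mul_left_left
      have ha : IsCoprime a c := hcop.of_mul_left_right
      have h1 : IsCoprime (q * (q ^ (2 * j) * a)) c :=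
        hq.mul_left ((hq.pow_left).mul_left ha)
      have h2 : q ^ (2 * (j + 1)) * a = q ^ 2 * (q ^ (2 * j) * a) := by ring
      rw [h2, hκ _ _ h1 hc, ih a c hcop hc, succ_nsmul, add_assoc]
  have h1 := key j 1 N (by simpa using hqN) (dvd_refl N)
  have h2 : F₁.k (q ^ (2 * j) * 1) N = F₁.k 1 N :=
    F₁.k_congr isCoprime_one_left (dvd_refl N) (by simpa using hj)
  rw [h2] at h1
  have h3 : j • κ = 0 := by
    have := h1.symm
    rwa [add_eq_left] at this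
  rw [key j a c hcop hc, h3, add_zero]

end HasKappa

/-! ### elementary number theory -/

theorem nt_solve {u l : ℤ} (v : ℤ) (hl : 0 < l) (h : IsCoprime u l) :
    ∃ i : ℕ, l ∣ v - i * u := by
  obtain ⟨r, s, hrs⟩ := h
  refine ⟨(r * v % l).toNat, ?_⟩
  have h1 : ((r * v % l).toNat : ℤ) = r * v % l :=
    Int.toNat_of_nonneg (Int.emod_nonneg _ hl.ne')
  rw [h1]
  have h2 : r * v % l = r * v - l * (r * v / l) := by
    have := Int.emod_add_mul_ediv (r * v) l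
    linarith
  rw [h2]
  exact ⟨s * v + (r * v / l) * u, by linear_combination (-v) * hrs⟩

theorem nt_binom (l z : ℤ) (e k : ℕ) :
    l ^ (e + 2) ∣ (1 + l ^ (e + 1) * z) ^ k - (1 + k * l ^ (e + 1) * z) := by
  induction k with
  | zero => simp
  | succ k ih =>
    obtain ⟨t, ht⟩ := ih
    refine ⟨t * (1 + l ^ (e + 1) * z) + k * l ^ e * z ^ 2, ?_⟩
    have : (1 + l ^ (e + 1) * z) ^ (k + 1) =
        ((1 + l ^ (e + 1) * z) ^ k - (1 + k * l ^ (e + 1) * z)) * (1 + l ^ (e + 1) * z) +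
          (1 + k * l ^ (e + 1) * z) * (1 + l ^ (e + 1) * z) := by ring
    rw [this, ht]
    push_cast
    ring

/-- `q^(2 φ(N) (ℓ-1)) = 1 + ℓ^(e+1) z` with `ℓ ∤ z`. -/
theorem nt_val {q l : ℕ} (M : ℕ) (hM : 0 < M) (hq : 1 < q) (hl : l.Prime) (hlq : ¬ l ∣ q) :
    ∃ (e : ℕ) (z : ℤ), ((q : ℤ) ^ (M * (l - 1))) = 1 + (l : ℤ) ^ (e + 1) * z ∧ ¬ (l : ℤ) ∣ z := by
  have hl1 : 0 < l - 1 := Nat.sub_pos_of_lt hl.one_lt
  have hgt : 1 < q ^ (M * (l - 1)) := Nat.one_lt_pow (Nat.mul_pos hM hl1).ne' hq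
  have hne : q ^ (M * (l - 1)) - 1 ≠ 0 := Nat.sub_ne_zero_of_lt hgt
  obtain ⟨e, z, hz, he⟩ := Nat.exists_eq_pow_mul_and_not_dvd hne l hl.ne_one
  have hdvd : l ∣ q ^ (M * (l - 1)) - 1 := by
    have hcop : IsCoprime (q : ℤ) (l : ℤ) := by
      rw [Nat.isCoprime_iff_coprime]
      exact ((Nat.Prime.coprime_iff_not_dvd hl).mpr hlq).symm
    have h1 := Int.ModEq.pow_card_sub_one_eq_one hl hcop
    have h2 : ((q : ℤ) ^ (l - 1)) ^ M ≡ 1 ^ M [ZMOD l] := h1.pow M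
    rw [one_pow, ← pow_mul, mul_comm (l - 1) M] at h2
    have h3 : (l : ℤ) ∣ (q : ℤ) ^ (M * (l - 1)) - 1 := (Int.modEq_iff_dvd.mp h2.symm)
    have h4 : ((q ^ (M * (l - 1)) - 1 : ℕ) : ℤ) = (q : ℤ) ^ (M * (l - 1)) - 1 := by
      rw [Nat.cast_sub hgt.le]; simp
    rw [← h4] at h3
    exact Int.natCast_dvd_natCast.mp h3
  have he0 : e ≠ 0 := by
    rintro rfl
    rw [pow_zero, one_mul] at he
    exact hz (he ▸ hdvd)
  obtain ⟨e', rfl⟩ := Nat.exists_eq_succ_of_ne_zero he0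
  refine ⟨e', z, ?_, by exact_mod_cast hz⟩
  have h4 : ((q ^ (M * (l - 1)) - 1 : ℕ) : ℤ) = (q : ℤ) ^ (M * (l - 1)) - 1 := by
    rw [Nat.cast_sub hgt.le]; simp
  rw [he, Nat.succ_eq_add_one] at h4
  push_cast at h4
  linear_combination -h4

theorem isCoprime_natAbs_right {x a : ℤ} (h : IsCoprime x a) : IsCoprime x (a.natAbs : ℤ) := by
  rw [Int.isCoprime_iff_gcd_eq_one] at h ⊢
  rw [Int.gcd, Int.natAbs_natCast]
  exact h

/-- Dirichlet step : a prime `w = c + a s`, `w ≡ 2 mod ℓ`, `w > B`. -/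
theorem nt_dirichlet {a c : ℤ} {l : ℕ} (B : ℕ) (hl : l.Prime) (hl2 : l ≠ 2) (ha0 : a ≠ 0)
    (hac : IsCoprime a c) (hal : IsCoprime a (l : ℤ)) :
    ∃ (w : ℕ) (s : ℤ), B < w ∧ w.Prime ∧ (w : ℤ) = c + a * s ∧ (l : ℤ) ∣ (w : ℤ) - 2 := by
  have hlpos : (0 : ℤ) < l := by exact_mod_cast hl.pos
  obtain ⟨t, ht⟩ := nt_solve (2 - c) hlpos hal
  have h2l : IsCoprime (2 : ℤ) (l : ℤ) := by
    have : Nat.Coprime 2 l := (Nat.coprime_primes Nat.prime_two hl).mpr (Ne.symm hl2)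
    exact_mod_cast Nat.isCoprime_iff_coprime.mpr this
  have hr_a : IsCoprime (c + t * a) a := IsCoprime.add_mul_right_left hac.symm t
  have hr_l : IsCoprime (c + t * a) (l : ℤ) := by
    obtain ⟨y, hy⟩ := ht
    have : c + t * a = 2 + (-y) * l := by linear_combination -hy
    rw [this]
    exact IsCoprime.add_mul_right_left h2l (-y)
  have hm0 : a.natAbs * l ≠ 0 := Nat.mul_ne_zero (Int.natAbs_ne_zero.mpr ha0) hl.ne_zero
  have hcop : IsCoprime (c + t * a) ((a.natAbs * l : ℕ) : ℤ) := by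
    push_cast
    exact IsCoprime.mul_right (by simpa using isCoprime_natAbs_right hr_a) hr_l
  obtain ⟨w, hwB, hw, hmod⟩ := Nat.forall_exists_prime_gt_and_zmodEq B hm0 hcop
  have hd : ((a.natAbs * l : ℕ) : ℤ) ∣ (w : ℤ) - (c + t * a) := (Int.modEq_iff_dvd.mp hmod.symm)
  have hda : a ∣ (w : ℤ) - (c + t * a) := by
    refine dvd_trans ?_ hd
    push_cast
    exact Dvd.dvd.mul_right (by simp) _
  have hdl : (l : ℤ) ∣ (w : ℤ) - (c + t * a) := by
    refine dvd_trans ?_ hd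
    push_cast
    exact Dvd.intro_left _ rfl
  obtain ⟨s, hs⟩ := hda
  refine ⟨w, s + t, hwB, hw, by linear_combination hs, ?_⟩
  have : (w : ℤ) - 2 = ((w : ℤ) - (c + t * a)) - (2 - c - t * a) := by ring
  rw [this]
  exact dvd_sub hdl ht

/-- **(B) KEY LEMMA X.** -/
theorem lemmaX {N q l : ℕ} (hN : 0 < N) (hq : q.Prime) (hqN : ¬ q ∣ N) (hl : l.Prime)
    (hl2 : l ≠ 2) (hlN : ¬ l ∣ N) (hlq : l ≠ q) {F₁ : QHom (N : ℤ) A}
    (H : HasKappa (q : ℤ) F₁) :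
    ∃ e : ℕ, ∀ a c : ℤ, IsCoprime a ((N : ℤ) * (l : ℤ) ^ (e + 2) * c) →
      F₁.k (a + N * (l : ℤ) ^ (e + 1) * c) (N * (l : ℤ) ^ (e + 2) * c) =
        F₁.k a (N * (l : ℤ) ^ (e + 2) * c) := by
  have hlq' : ¬ l ∣ q := fun h => hlq ((Nat.prime_dvd_prime_iff_eq hl hq).mp h)
  have hφ : 0 < 2 * N.totient := Nat.mul_pos two_pos (Nat.totient_pos.mpr hN)
  obtain ⟨e, z, hX, hz⟩ := nt_val (2 * N.totient) hφ hq.one_lt hl hlq'
  refine ⟨e, fun a c hcop => ?_⟩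
  have hlpos : (0 : ℤ) < l := by exact_mod_cast hl.pos
  have hlprime : Prime (l : ℤ) := Nat.prime_iff_prime_int.mp hl
  -- coprimality facts
  have haN : IsCoprime a (N : ℤ) := (hcop.of_mul_right_left).of_mul_right_left
  have hal' : IsCoprime a ((l : ℤ) ^ (e + 2)) := (hcop.of_mul_right_left).of_mul_right_right
  have hal : IsCoprime a (l : ℤ) := by
    rw [pow_succ] at hal'
    exact hal'.of_mul_right_right
  have hac : IsCoprime a c := hcop.of_mul_right_right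
  have ha0 : a ≠ 0 := by
    rintro rfl
    have := isCoprime_zero_left.mp hal
    exact hlprime.not_isUnit this
  obtain ⟨w, s, hwB, hw, hws, hw2⟩ := nt_dirichlet (N + q + l) hl hl2 ha0 hac hal
  have hwprime : Prime (w : ℤ) := Nat.prime_iff_prime_int.mp hw
  -- `w` is coprime to `N`, `q`, `l`
  have hwN : IsCoprime (w : ℤ) (N : ℤ) := by
    rw [Nat.isCoprime_iff_coprime, Nat.Prime.coprime_iff_not_dvd hw]
    intro h
    have := Nat.le_of_dvd hN h
    omega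
  have hwq : IsCoprime (q : ℤ) (w : ℤ) := by
    rw [Nat.isCoprime_iff_coprime, Nat.coprime_primes hq hw]
    omega
  have hwl : IsCoprime (w : ℤ) (l : ℤ) := by
    rw [Nat.isCoprime_iff_coprime, Nat.coprime_primes hw hl]
    omega
  have hqNc : IsCoprime (q : ℤ) (N : ℤ) := by
    rw [Nat.isCoprime_iff_coprime, Nat.Prime.coprime_iff_not_dvd hq]
    exact hqN
  have hql : IsCoprime (q : ℤ) (l : ℤ) := by
    rw [Nat.isCoprime_iff_coprime, Nat.coprime_primes hq hl]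
    exact Ne.symm hlq
  have hlNc : IsCoprime (l : ℤ) (N : ℤ) := by
    rw [Nat.isCoprime_iff_coprime, Nat.Prime.coprime_iff_not_dvd hl]
    exact hlN
  have haw : IsCoprime a (w : ℤ) := by
    rw [hws]
    have : c + a * s = c + s * a := by ring
    rw [this]
    exact (IsCoprime.add_mul_right_left hac.symm s).symm
  -- `l ∤ w - 1`
  have hw1 : IsCoprime ((w : ℤ) - 1) (l : ℤ) := by
    obtain ⟨y, hy⟩ := hw2
    have : (w : ℤ) - 1 = 1 + y * l := by linear_combination hy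
    rw [this]
    exact IsCoprime.add_mul_right_left isCoprime_one_left y
  have hzl : IsCoprime z (l : ℤ) := ((Prime.coprime_iff_not_dvd hlprime).mpr hz).symm
  -- choice of `i`
  obtain ⟨i, hi⟩ := nt_solve ((N : ℤ) * w) hlpos ((hw1.mul_left hzl).mul_left hal)
  -- the exponent
  set j : ℕ := N.totient * (l - 1) * ((w - 1) * i) with hj
  have hpow : (q : ℤ) ^ (2 * j) = (1 + (l : ℤ) ^ (e + 1) * z) ^ ((w - 1) * i) := by
    rw [← hX, ← pow_mul, hj]
    congr 1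
    ring
  have hjN : (N : ℤ) ∣ (q : ℤ) ^ (2 * j) - 1 := by
    have h1 : q ^ N.totient ≡ 1 [MOD N] :=
      Nat.ModEq.pow_totient ((Nat.Prime.coprime_iff_not_dvd hq).mpr hqN)
    have h2 : ((q : ℤ) ^ N.totient) ≡ 1 [ZMOD N] := by
      have := (Int.natCast_modEq_iff).mpr h1
      simpa using this
    have h3 := h2.pow (2 * ((l - 1) * ((w - 1) * i)))
    rw [one_pow, ← pow_mul] at h3
    have h4 : N.totient * (2 * ((l - 1) * ((w - 1) * i))) = 2 * j := by rw [hj]; ring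
    rw [h4] at h3
    exact Int.modEq_iff_dvd.mp h3.symm
  have hjw : (w : ℤ) ∣ (q : ℤ) ^ (2 * j) - 1 := by
    have h2 := Int.ModEq.pow_card_sub_one_eq_one hw hwq
    have h3 := h2.pow (2 * (N.totient * (l - 1) * i))
    rw [one_pow, ← pow_mul] at h3
    have h4 : (w - 1) * (2 * (N.totient * (l - 1) * i)) = 2 * j := by rw [hj]; ring
    rw [h4] at h3
    exact Int.modEq_iff_dvd.mp h3.symm
  have hjl : (l : ℤ) ^ (e + 2) ∣ (a + N * (l : ℤ) ^ (e + 1) * w) - (q : ℤ) ^ (2 * j) * a := by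
    obtain ⟨y, hy⟩ := nt_binom (l : ℤ) z e ((w - 1) * i)
    obtain ⟨y', hy'⟩ := hi
    rw [hpow]
    have hcast : (((w - 1) * i : ℕ) : ℤ) = ((w : ℤ) - 1) * i := by
      rw [Nat.cast_mul, Nat.cast_sub hw.one_lt.le]; simp
    rw [hcast] at hy
    refine ⟨y' - y * a, ?_⟩
    have : (1 + (l : ℤ) ^ (e + 1) * z) ^ ((w - 1) * i) =
        (l : ℤ) ^ (e + 2) * y + (1 + ((w : ℤ) - 1) * i * (l : ℤ) ^ (e + 1) * z) := by
      linear_combination hy
    rw [this]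
    linear_combination ((l : ℤ) ^ (e + 1)) * hy'
  -- notation
  set c' : ℤ := (N : ℤ) * (l : ℤ) ^ (e + 2) * w with hc'
  set c0 : ℤ := (N : ℤ) * (l : ℤ) ^ (e + 2) * c with hc0
  have hc0N : (N : ℤ) ∣ c0 := ⟨(l : ℤ) ^ (e + 2) * c, by rw [hc0]; ring⟩
  have hc'N : (N : ℤ) ∣ c' := ⟨(l : ℤ) ^ (e + 2) * w, by rw [hc']; ring⟩
  have hcc' : c' = c0 + ((N : ℤ) * (l : ℤ) ^ (e + 2) * s) * a := by
    rw [hc', hc0, hws]; ring
  have hcop' : IsCoprime a c' := (haN.mul_right hal').mul_right haw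
  -- S1
  have S1 : F₁.k a c' = F₁.k a c0 := by
    rw [hcc']
    exact F₁.k_add_mul' _ ⟨(l : ℤ) ^ (e + 2) * s, by ring⟩ hcop hc0N
  -- coprimality of the shifted column
  have hcopsh : IsCoprime (a + N * (l : ℤ) ^ (e + 1) * c) c0 := by
    have h1 : IsCoprime (a + N * (l : ℤ) ^ (e + 1) * c) (N : ℤ) := by
      have : a + N * (l : ℤ) ^ (e + 1) * c = a + ((l : ℤ) ^ (e + 1) * c) * N := by ring
      rw [this]; exact IsCoprime.add_mul_right_left haN _
    have h2 : IsCoprime (a + N * (l : ℤ) ^ (e + 1) * c) (l : ℤ) := by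
      have : a + N * (l : ℤ) ^ (e + 1) * c = a + (N * (l : ℤ) ^ e * c) * l := by ring
      rw [this]; exact IsCoprime.add_mul_right_left hal _
    have h3 : IsCoprime (a + N * (l : ℤ) ^ (e + 1) * c) c := by
      have : a + N * (l : ℤ) ^ (e + 1) * c = a + (N * (l : ℤ) ^ (e + 1)) * c := by ring
      rw [this]; exact IsCoprime.add_mul_right_left hac _
    exact (h1.mul_right h2.pow_right).mul_right h3
  -- S2
  have S2 : F₁.k (a + N * (l : ℤ) ^ (e + 1) * w) c' = F₁.k (a + N * (l : ℤ) ^ (e + 1) * c) c0 := by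
    have hdet : (1 + (N : ℤ) * (l : ℤ) ^ (e + 1) * s) * (1 - (N : ℤ) * (l : ℤ) ^ (e + 1) * s) -
        (-((N : ℤ) * (l : ℤ) ^ e * s)) * ((N : ℤ) * (l : ℤ) ^ (e + 2) * s) = 1 := by ring
    have hNd : (N : ℤ) ∣ (N : ℤ) * (l : ℤ) ^ (e + 2) * s := ⟨(l : ℤ) ^ (e + 2) * s, by ring⟩
    rw [F₁.k_smul hdet hNd hcopsh hc0N (by rw [hc0, hws]; ring) (by rw [hc', hc0, hws]; ring),
      F₁.par hdet hNd (by ring), add_zero]
  -- S3, S4
  have hqa : IsCoprime ((q : ℤ) * a) c' :=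
    ((hqNc.mul_right hql.pow_right).mul_right hwq).mul_left hcop'
  have hqja : IsCoprime ((q : ℤ) ^ (2 * j) * a) c' :=
    (((hqNc.mul_right hql.pow_right).mul_right hwq).pow_left).mul_left hcop'
  have hdvd : c' ∣ (a + N * (l : ℤ) ^ (e + 1) * w) - (q : ℤ) ^ (2 * j) * a := by
    have d1 : (N : ℤ) ∣ (a + N * (l : ℤ) ^ (e + 1) * w) - (q : ℤ) ^ (2 * j) * a := by
      obtain ⟨y, hy⟩ := hjN
      exact ⟨(l : ℤ) ^ (e + 1) * w - y * a, by linear_combination (-a) * hy⟩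
    have d3 : (w : ℤ) ∣ (a + N * (l : ℤ) ^ (e + 1) * w) - (q : ℤ) ^ (2 * j) * a := by
      obtain ⟨y, hy⟩ := hjw
      exact ⟨N * (l : ℤ) ^ (e + 1) - y * a, by linear_combination (-a) * hy⟩
    have d12 := IsCoprime.mul_dvd (hlNc.symm.pow_right) d1 hjl
    exact IsCoprime.mul_dvd ((hwN.symm).mul_left (hwl.symm.pow_left)) d12 d3
  have S3 : F₁.k (a + N * (l : ℤ) ^ (e + 1) * w) c' = F₁.k ((q : ℤ) ^ (2 * j) * a) c' :=
    F₁.k_congr hqja hc'N hdvd
  have S4 : F₁.k ((q : ℤ) ^ (2 * j) * a) c' = F₁.k a c' := H.k_pow_mul hqNc hqa hc'N hjN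
  rw [← S2, S3, S4, S1]

end Fermat.Agent.S41.Ihara
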