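import Mathlib

/-!
# S41 / Ihara : homomorphisms on `Γ₀(N)` as functions of four integers

To keep the (purely arithmetical) proof of the weak Ihara lemma free of matrix bookkeeping we
model a parabolic homomorphism `Γ₀(N) → A` as a function `f a b c d` of the four entries.
`k a c` is the induced function on first columns.
-/

set_option autoImplicit false

namespace Fermat.Agent.S41.Ihara

/-- A parabolic homomorphism `Γ₀(N) → A`, as a function of the entries. -/
structure QHom (N : ℤ) (A : Type*) [AddCommGroup A] where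
  f : ℤ → ℤ → ℤ → ℤ → A
  mul : ∀ {a b c d a' b' c' d' : ℤ}, a * d - b * c = 1 → N ∣ c → a' * d' - b' * c' = 1 → N ∣ c' →
    f (a * a' + b * c') (a * b' + b * d') (c * a' + d * c') (c * b' + d * d') =
      f a b c d + f a' b' c' d'
  par : ∀ {a b c d : ℤ}, a * d - b * c = 1 → N ∣ c → a + d = 2 → f a b c d = 0

namespace QHom

variable {N : ℤ} {A : Type*} [AddCommGroup A] (F : QHom N A)

theorem mul_eq {a b c d a' b' c' d' x y z w : ℤ} (h : a * d - b * c = 1) (hN : N ∣ c)
    (h' : a' * d' - b' * c' = 1) (hN' : N ∣ c')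
    (hx : x = a * a' + b * c') (hy : y = a * b' + b * d') (hz : z = c * a' + d * c')
    (hw : w = c * b' + d * d') :
    F.f x y z w = F.f a b c d + F.f a' b' c' d' := by
  subst hx hy hz hw
  exact F.mul h hN h' hN'

/-- `f` only depends on the first column. -/
theorem f_eq_of_col {a b c d b' d' : ℤ} (h : a * d - b * c = 1) (hN : N ∣ c)
    (h' : a * d' - b' * c = 1) : F.f a b' c d' = F.f a b c d := by
  have h1 : F.f 1 (d * b' - b * d') 0 1 = 0 := F.par (by ring) (dvd_zero _) (by ring)
  rw [F.mul_eq (a' := 1) (b' := d * b' - b * d') (c' := 0) (d' := 1) h hN (by ring) (dvd_zero _)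
    (by ring) (by linear_combination (-b') * h + b * h') (by ring)
    (by linear_combination (-d') * h + d * h'), h1, add_zero]

/-- the function on first columns. -/
noncomputable def k (a c : ℤ) : A := F.f a (-Int.gcdB a c) c (Int.gcdA a c)

theorem f_eq_k {a b c d : ℤ} (h : a * d - b * c = 1) (hN : N ∣ c) : F.f a b c d = F.k a c := by
  have hcop : IsCoprime a c := ⟨d, -b, by linear_combination h⟩
  have h1 : (Int.gcd a c : ℤ) = 1 := by
    have := Int.isCoprime_iff_gcd_eq_one.mp hcop
    rw [this]; rfl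
  have h2 := Int.gcd_eq_gcd_ab a c
  rw [h1] at h2
  exact (F.f_eq_of_col h hN (by linear_combination -h2)).symm

theorem exists_f_eq_k {a c : ℤ} (hcop : IsCoprime a c) :
    ∃ b d : ℤ, a * d - b * c = 1 := by
  obtain ⟨u, v, huv⟩ := hcop
  exact ⟨-v, u, by linear_combination huv⟩

/-- equivariance of `k`. -/
theorem k_smul {α β γ δ a c x z : ℤ} (h : α * δ - β * γ = 1) (hN : N ∣ γ)
    (hcop : IsCoprime a c) (hc : N ∣ c) (hx : x = α * a + β * c) (hz : z = γ * a + δ * c) :
    F.k x z = F.k a c + F.f α β γ δ := by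
  obtain ⟨b, d, hbd⟩ := exists_f_eq_k hcop
  have h1 : x * (γ * b + δ * d) - (α * b + β * d) * z = 1 := by
    subst hx hz
    linear_combination (a * d - b * c) * h + hbd
  have hz' : N ∣ z := by
    subst hz
    exact dvd_add (Dvd.dvd.mul_right hN _) (Dvd.dvd.mul_left hc _)
  rw [← F.f_eq_k h1 hz', ← F.f_eq_k hbd hc,
    F.mul_eq h hN hbd hc hx rfl hz rfl, add_comm]

/-- upper unipotent translation. -/
theorem k_add_mul {a c : ℤ} (t : ℤ) (hcop : IsCoprime a c) (hc : N ∣ c) :
    F.k (a + t * c) c = F.k a c := by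
  rw [F.k_smul (α := 1) (β := t) (γ := 0) (δ := 1) (by ring) (dvd_zero _) hcop hc (by ring)
    (by ring), F.par (by ring) (dvd_zero _) (by ring), add_zero]

/-- lower unipotent translation. -/
theorem k_add_mul' {a c : ℤ} (t : ℤ) (ht : N ∣ t) (hcop : IsCoprime a c) (hc : N ∣ c) :
    F.k a (c + t * a) = F.k a c := by
  rw [F.k_smul (α := 1) (β := 0) (γ := t) (δ := 1) (by ring) ht hcop hc (by ring)
    (by ring), F.par (by ring) ht (by ring), add_zero]

theorem k_congr {a a' c : ℤ} (hcop : IsCoprime a c) (hc : N ∣ c) (h : c ∣ a' - a) :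
    F.k a' c = F.k a c := by
  obtain ⟨t, ht⟩ := h
  have : a' = a + t * c := by linear_combination ht
  rw [this, F.k_add_mul t hcop hc]

end QHom

end Fermat.Agent.S41.Ihara
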