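import Fermat.Agent.S41.Ihara.Deep

/-!
# S41 / Ihara (C1) : the monoid of integral matrices `x` such that conjugation by `x` preserves `φ`
on deep `ℓ`-power congruence subgroups
-/

set_option autoImplicit false

open CongruenceSubgroup ModularCurve.Period
open scoped MatrixGroups

namespace Fermat.Agent.S41.Ihara

variable {A : Type*} [AddCommGroup A]

theorem isCoprime_shift {a N l c : ℤ} (e : ℕ) (t : ℤ) (h : IsCoprime a (N * l ^ (e + 2) * c)) :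
    IsCoprime (a + t * (N * l ^ (e + 1) * c)) (N * l ^ (e + 2) * c) := by
  have haN : IsCoprime a N := (h.of_mul_right_left).of_mul_right_left
  have hal' : IsCoprime a (l ^ (e + 2)) := (h.of_mul_right_left).of_mul_right_right
  have hal : IsCoprime a l := by
    rw [pow_succ] at hal'
    exact hal'.of_mul_right_right
  have hac : IsCoprime a c := h.of_mul_right_right
  have h1 : IsCoprime (a + t * (N * l ^ (e + 1) * c)) N := by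
    have : a + t * (N * l ^ (e + 1) * c) = a + (t * l ^ (e + 1) * c) * N := by ring
    rw [this]; exact IsCoprime.add_mul_right_left haN _
  have h2 : IsCoprime (a + t * (N * l ^ (e + 1) * c)) l := by
    have : a + t * (N * l ^ (e + 1) * c) = a + (t * N * l ^ e * c) * l := by ring
    rw [this]; exact IsCoprime.add_mul_right_left hal _
  have h3 : IsCoprime (a + t * (N * l ^ (e + 1) * c)) c := by
    have : a + t * (N * l ^ (e + 1) * c) = a + (t * N * l ^ (e + 1)) * c := by ring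
    rw [this]; exact IsCoprime.add_mul_right_left hac _
  exact (h1.mul_right h2.pow_right).mul_right h3

/-- iterated form of lemma X. -/
theorem lemmaX_int {N q l : ℕ} (hN : 0 < N) (hq : q.Prime) (hqN : ¬ q ∣ N) (hl : l.Prime)
    (hl2 : l ≠ 2) (hlN : ¬ l ∣ N) (hlq : l ≠ q) {F₁ : QHom (N : ℤ) A}
    (H : HasKappa (q : ℤ) F₁) :
    ∃ e : ℕ, ∀ t a c : ℤ, IsCoprime a ((N : ℤ) * (l : ℤ) ^ (e + 2) * c) →
      F₁.k (a + t * (N * (l : ℤ) ^ (e + 1) * c)) (N * (l : ℤ) ^ (e + 2) * c) =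
        F₁.k a (N * (l : ℤ) ^ (e + 2) * c) := by
  obtain ⟨e, he⟩ := lemmaX hN hq hqN hl hl2 hlN hlq H
  refine ⟨e, fun t a c hcop => ?_⟩
  induction t using Int.induction_on with
  | zero => simp
  | succ i ih =>
    have h1 := he _ c (isCoprime_shift e (i : ℤ) hcop)
    rw [ih] at h1
    rw [← h1]
    congr 1
    ring
  | pred i ih =>
    have h1 := he _ c (isCoprime_shift e (-(i : ℤ) - 1) hcop)
    rw [← h1, ← ih]
    congr 1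
    ring

/-- **(A)+(B), export with a parameter `t`.** -/
theorem conj_tau_int {N q l : ℕ} (hN : 0 < N) (hq : q.Prime) (hqN : ¬ q ∣ N) (hl : l.Prime)
    (hl2 : l ≠ 2) (hlN : ¬ l ∣ N) (hlq : l ≠ q) {φ₁ : Additive (Gamma0 N) →+ A}
    (h₁ : IsParabolicHom (Gamma0 N) φ₁) (H : HasKappa (q : ℤ) (toQHom φ₁ h₁)) :
    ∃ n : ℕ, ∀ (t : ℤ) (g g' : Gamma0 N), (l : ℤ) ^ n ∣ (g : SL(2, ℤ)) 1 0 →
      (g' : SL(2, ℤ)) 1 0 = (g : SL(2, ℤ)) 1 0 →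
      (l : ℤ) * ((g' : SL(2, ℤ)) 0 0 - (g : SL(2, ℤ)) 0 0) = t * (g : SL(2, ℤ)) 1 0 →
      φ₁ (Additive.ofMul g') = φ₁ (Additive.ofMul g) := by
  obtain ⟨e, he⟩ := lemmaX_int hN hq hqN hl hl2 hlN hlq H
  refine ⟨e + 2, fun t g g' hg h10 h00 => ?_⟩
  have hlNc : IsCoprime (N : ℤ) ((l : ℤ) ^ (e + 2)) := by
    apply IsCoprime.pow_right
    rw [Nat.isCoprime_iff_coprime]
    exact ((Nat.Prime.coprime_iff_not_dvd hl).mpr hlN).symm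
  obtain ⟨c, hc⟩ := IsCoprime.mul_dvd hlNc (Gamma0_dvd g) hg
  have hcop : IsCoprime ((g : SL(2, ℤ)) 0 0) ((N : ℤ) * (l : ℤ) ^ (e + 2) * c) := by
    rw [← hc]
    exact ⟨(g : SL(2, ℤ)) 1 1, -(g : SL(2, ℤ)) 0 1, by linear_combination Gamma0_det g⟩
  have hl0 : (l : ℤ) ≠ 0 := by exact_mod_cast hl.ne_zero
  have h00' : (g' : SL(2, ℤ)) 0 0 = (g : SL(2, ℤ)) 0 0 + t * (N * (l : ℤ) ^ (e + 1) * c) := by
    apply mul_left_cancel₀ hl0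
    rw [hc] at h00
    linear_combination h00
  rw [← toQHom_k φ₁ h₁ g', ← toQHom_k φ₁ h₁ g, h10, h00', hc]
  exact he _ _ _ hcop

/-! ### the monoid -/

/-- `x γ = γ' x` with `φ γ' = φ γ`, for `γ` deep, `γ'` as deep as we like. -/
def Stab {N : ℕ} (l : ℕ) (φ : Additive (Gamma0 N) →+ A) (x : Matrix (Fin 2) (Fin 2) ℤ) : Prop :=
  ∀ n : ℕ, ∃ m : ℕ, ∀ γ : Gamma0 N, (γ : SL(2, ℤ)) ∈ Gamma (l ^ m) →
    ∃ γ' : Gamma0 N, (γ' : SL(2, ℤ)) ∈ Gamma (l ^ n) ∧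
      x * ((γ : SL(2, ℤ)) : Matrix (Fin 2) (Fin 2) ℤ) =
        ((γ' : SL(2, ℤ)) : Matrix (Fin 2) (Fin 2) ℤ) * x ∧
      φ (Additive.ofMul γ') = φ (Additive.ofMul γ)

theorem Gamma_pow_mono {l m m' : ℕ} (h : m ≤ m') {g : SL(2, ℤ)} (hg : g ∈ Gamma (l ^ m')) :
    g ∈ Gamma (l ^ m) := by
  rw [mem_Gamma_iff_dvd] at hg ⊢
  have hd : ((l ^ m : ℕ) : ℤ) ∣ ((l ^ m' : ℕ) : ℤ) := by
    exact_mod_cast pow_dvd_pow l h
  exact ⟨hd.trans hg.1, hd.trans hg.2.1, hd.trans hg.2.2.1, hd.trans hg.2.2.2⟩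

theorem Stab.mul {N l : ℕ} {φ : Additive (Gamma0 N) →+ A} {x y : Matrix (Fin 2) (Fin 2) ℤ}
    (hx : Stab l φ x) (hy : Stab l φ y) : Stab l φ (x * y) := by
  intro n
  obtain ⟨m1, h1⟩ := hx n
  obtain ⟨m2, h2⟩ := hy m1
  refine ⟨m2, fun γ hγ => ?_⟩
  obtain ⟨γ1, hγ1, e1, f1⟩ := h2 γ hγ
  obtain ⟨γ2, hγ2, e2, f2⟩ := h1 γ1 hγ1
  exact ⟨γ2, hγ2, by rw [mul_assoc, e1, ← mul_assoc, e2, mul_assoc], f2.trans f1⟩

theorem Stab.of_Gamma0 {N : ℕ} (l : ℕ) (φ : Additive (Gamma0 N) →+ A) (g : Gamma0 N) :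
    Stab l φ ((g : SL(2, ℤ)) : Matrix (Fin 2) (Fin 2) ℤ) := by
  intro n
  refine ⟨n, fun γ hγ => ⟨g * γ * g⁻¹, ?_, ?_, ?_⟩⟩
  · exact (Gamma_normal (l ^ n)).conj_mem _ hγ _
  · rw [← Matrix.SpecialLinearGroup.coe_mul, ← Matrix.SpecialLinearGroup.coe_mul,
      ← Subgroup.coe_mul, ← Subgroup.coe_mul, inv_mul_cancel_right]
  · rw [ofMul_mul, ofMul_mul, ofMul_inv, map_add, map_add, map_neg]
    abel

/-- entrywise form of the relation. -/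
theorem rel_of_entries {N : ℕ} {p r s u : ℤ} {γ γ' : Gamma0 N}
    (h00 : p * (γ : SL(2, ℤ)) 0 0 + r * (γ : SL(2, ℤ)) 1 0 =
      (γ' : SL(2, ℤ)) 0 0 * p + (γ' : SL(2, ℤ)) 0 1 * s)
    (h01 : p * (γ : SL(2, ℤ)) 0 1 + r * (γ : SL(2, ℤ)) 1 1 =
      (γ' : SL(2, ℤ)) 0 0 * r + (γ' : SL(2, ℤ)) 0 1 * u)
    (h10 : s * (γ : SL(2, ℤ)) 0 0 + u * (γ : SL(2, ℤ)) 1 0 =
      (γ' : SL(2, ℤ)) 1 0 * p + (γ' : SL(2, ℤ)) 1 1 * s)
    (h11 : s * (γ : SL(2, ℤ)) 0 1 + u * (γ : SL(2, ℤ)) 1 1 =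
      (γ' : SL(2, ℤ)) 1 0 * r + (γ' : SL(2, ℤ)) 1 1 * u) :
    !![p, r; s, u] * ((γ : SL(2, ℤ)) : Matrix (Fin 2) (Fin 2) ℤ) =
      ((γ' : SL(2, ℤ)) : Matrix (Fin 2) (Fin 2) ℤ) * !![p, r; s, u] := by
  ext i j
  fin_cases i <;> fin_cases j <;> simp [Matrix.mul_apply, Fin.sum_univ_two]
  · exact h00
  · exact h01
  · exact h10
  · exact h11

/-- `U_t = (ℓ t; 0 ℓ)` (i.e. `τ_{t/ℓ}`) stabilises `φ₁`. -/
theorem Stab.U {N q l : ℕ} (hN : 0 < N) (hq : q.Prime) (hqN : ¬ q ∣ N) (hl : l.Prime)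
    (hl2 : l ≠ 2) (hlN : ¬ l ∣ N) (hlq : l ≠ q) {φ₁ : Additive (Gamma0 N) →+ A}
    (h₁ : IsParabolicHom (Gamma0 N) φ₁) (H : HasKappa (q : ℤ) (toQHom φ₁ h₁)) (t : ℤ) :
    Stab l φ₁ !![(l : ℤ), t; 0, (l : ℤ)] := by
  obtain ⟨n0, hn0⟩ := conj_tau_int hN hq hqN hl hl2 hlN hlq h₁ H
  intro n
  refine ⟨max n n0 + 2, fun γ hγ => ?_⟩
  set k := max n n0 with hk
  rw [mem_Gamma_iff_dvd] at hγ
  push_cast at hγ
  obtain ⟨⟨a', ha⟩, ⟨b', hb⟩, ⟨c', hc⟩, ⟨d', hd⟩⟩ := hγ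
  have hdet := Gamma0_det γ
  have hdet' : ((γ : SL(2, ℤ)) 0 0 + t * ((l : ℤ) ^ (k + 1) * c')) *
      ((γ : SL(2, ℤ)) 1 1 - t * ((l : ℤ) ^ (k + 1) * c')) -
      ((γ : SL(2, ℤ)) 0 1 + t * ((l : ℤ) ^ (k + 1) * (d' - a')) - t ^ 2 * ((l : ℤ) ^ k * c')) *
        (γ : SL(2, ℤ)) 1 0 = 1 := by
    linear_combination hdet + t * ((l : ℤ) ^ (k + 1) * c') * (hd - ha) +
      (t ^ 2 * ((l : ℤ) ^ k * c') - t * ((l : ℤ) ^ (k + 1) * (d' - a'))) * hc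
  have hkn : (l : ℤ) ^ n ∣ (l : ℤ) ^ k := pow_dvd_pow _ (le_max_left _ _)
  refine ⟨mkG N _ _ _ _ hdet' (Gamma0_dvd γ), ?_, ?_, ?_⟩
  · rw [mem_Gamma_iff_dvd]
    push_cast
    simp only [mkG_00, mkG_01, mkG_10, mkG_11]
    refine ⟨hkn.trans ⟨(l : ℤ) ^ 2 * a' + t * l * c', by linear_combination ha⟩,
      hkn.trans ⟨(l : ℤ) ^ 2 * b' + t * l * (d' - a') - t ^ 2 * c', by linear_combination hb⟩,
      hkn.trans ⟨(l : ℤ) ^ 2 * c', by linear_combination hc⟩,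
      hkn.trans ⟨(l : ℤ) ^ 2 * d' - t * l * c', by linear_combination hd⟩⟩
  · apply rel_of_entries <;> simp only [mkG_00, mkG_01, mkG_10, mkG_11]
    · linear_combination t * hc
    · linear_combination t * (hd - ha)
    · ring
    · linear_combination (-t) * hc
  · refine hn0 t γ (mkG N _ _ _ _ hdet' (Gamma0_dvd γ)) ?_ rfl ?_
    · exact (pow_dvd_pow _ (le_max_right n n0)).trans ⟨(l : ℤ) ^ 2 * c', by linear_combination hc⟩
    · simp only [mkG_00]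
      linear_combination (-t) * hc

/-- the representative `(1 j; 0 ℓ)` normalises deep subgroups. -/
theorem Stab.repFin {N l : ℕ} (j : ℤ) :
    Stab l (0 : Additive (Gamma0 N) →+ A) !![1, j; 0, (l : ℤ)] := by
  intro n
  refine ⟨n + 1, fun γ hγ => ?_⟩
  rw [mem_Gamma_iff_dvd] at hγ
  push_cast at hγ
  obtain ⟨⟨a', ha⟩, ⟨b', hb⟩, ⟨c', hc⟩, ⟨d', hd⟩⟩ := hγ
  have hdet := Gamma0_det γ
  have hdet' : ((γ : SL(2, ℤ)) 0 0 + j * (γ : SL(2, ℤ)) 1 0) *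
      ((γ : SL(2, ℤ)) 1 1 - j * (γ : SL(2, ℤ)) 1 0) -
      ((l : ℤ) ^ n * (b' + j * (d' - a') - j ^ 2 * c')) * (l * (γ : SL(2, ℤ)) 1 0) = 1 := by
    linear_combination hdet + (γ : SL(2, ℤ)) 1 0 * (hb + j * (hd - ha) - j ^ 2 * hc)
  refine ⟨mkG N _ _ _ _ hdet' (Dvd.dvd.mul_left (Gamma0_dvd γ) _), ?_, ?_, rfl⟩
  · rw [mem_Gamma_iff_dvd]
    push_cast
    simp only [mkG_00, mkG_01, mkG_10, mkG_11]
    refine ⟨⟨l * (a' + j * c'), by linear_combination ha + j * hc⟩, Dvd.intro _ rfl,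
      ⟨(l : ℤ) ^ 2 * c', by linear_combination l * hc⟩,
      ⟨l * (d' - j * c'), by linear_combination hd - j * hc⟩⟩
  · apply rel_of_entries <;> simp only [mkG_00, mkG_01, mkG_10, mkG_11]
    · ring
    · linear_combination hb + j * (hd - ha) - j ^ 2 * hc
    · ring
    · ring

/-- the representative `(ℓ 0; 0 1)` normalises deep subgroups. -/
theorem Stab.repInf {N l : ℕ} (hl : l.Prime) (hlN : ¬ l ∣ N) :
    Stab l (0 : Additive (Gamma0 N) →+ A) !![(l : ℤ), 0; 0, 1] := by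
  intro n
  refine ⟨n + 1, fun γ hγ => ?_⟩
  rw [mem_Gamma_iff_dvd] at hγ
  push_cast at hγ
  obtain ⟨⟨a', ha⟩, ⟨b', hb⟩, ⟨c', hc⟩, ⟨d', hd⟩⟩ := hγ
  have hdet := Gamma0_det γ
  have hdet' : (γ : SL(2, ℤ)) 0 0 * (γ : SL(2, ℤ)) 1 1 -
      (l * (γ : SL(2, ℤ)) 0 1) * ((l : ℤ) ^ n * c') = 1 := by
    linear_combination hdet + (γ : SL(2, ℤ)) 0 1 * hc
  have hNc : (N : ℤ) ∣ (l : ℤ) ^ n * c' := by
    have h1 : (N : ℤ) ∣ l * ((l : ℤ) ^ n * c') := by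
      have := Gamma0_dvd γ
      rw [hc] at this
      have e : (l : ℤ) ^ (n + 1) * c' = l * ((l : ℤ) ^ n * c') := by ring
      rwa [e] at this
    have hcop : IsCoprime (N : ℤ) (l : ℤ) := by
      rw [Nat.isCoprime_iff_coprime]
      exact ((Nat.Prime.coprime_iff_not_dvd hl).mpr hlN).symm
    exact hcop.dvd_of_dvd_mul_left h1
  refine ⟨mkG N _ _ _ _ hdet' hNc, ?_, ?_, rfl⟩
  · rw [mem_Gamma_iff_dvd]
    push_cast
    simp only [mkG_00, mkG_01, mkG_10, mkG_11]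
    refine ⟨⟨l * a', by linear_combination ha⟩, ⟨(l : ℤ) ^ 2 * b', by linear_combination l * hb⟩,
      Dvd.intro _ rfl, ⟨l * d', by linear_combination hd⟩⟩
  · apply rel_of_entries <;> simp only [mkG_00, mkG_01, mkG_10, mkG_11]
    · ring
    · ring
    · linear_combination hc
    · ring

end Fermat.Agent.S41.Ihara
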